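import Fermat.Agent.LT.T6.H783.CenSpec

/-!
# Row LT, tower T6, leaf T6.18g1 `TranslC783` (translation by a central element)

OFF-MAIN (helper388).  Proves `Fermat.Agent.LT.T6.H783.TranslC783` VERBATIM:
local matching at the identity (for all data) gives local matching at every central norm
`z = N ζ`.

`Z` = the scalar matrix `ζ` in `GL₂(k')`, `W` = the scalar matrix `z` in `GL₂(k)`.
* `φ_ζ(g) = φ(Z g)` has `BadData783`;
* the `s`-conjugacy class of `Z δ` is `Z ·` the class of `δ`, with the same classes modulo `U`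
  and the same twisted centralisers, so `TO_{Z δ}(φ) = TO_δ(φ_ζ)` (`isOrbSumGen_transl388`);
* `N(Z δ) = ι(W) N(δ)` (`twNorm_sc_mul388`, `sc_nrm_eq_map388`);
* `f(g) = f₁(W⁻¹ g)`, radius `N = N₁ + 2 |log v(z)|`.
-/

set_option autoImplicit false

open scoped Matrix

noncomputable section

namespace Fermat.Agent.LT.T6.H388

open Fermat.Agent.LT.T6 Fermat.Agent.LT.T6.H783

/-! ## Generic part: translation by a central element of a group -/

section Generic

variable {Γ : Type} [Group Γ]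

/-- The translate `g ↦ φ(Z g)`. -/
def transl388 (Z : Γ) (φ : Γ → ℂ) : Γ → ℂ := fun g => φ (Z * g)

theorem transl_transl_inv388 (Z : Γ) (φ : Γ → ℂ) : transl388 Z (transl388 Z⁻¹ φ) = φ := by
  funext g
  simp [transl388]

theorem central_mul388 {Z : Γ} (hZ : ∀ g, Z * g = g * Z) (a b : Γ) :
    a * (Z * b) = Z * (a * b) := by
  rw [← mul_assoc, ← hZ a, mul_assoc]

theorem central_inv388 {Z : Γ} (hZ : ∀ g, Z * g = g * Z) : ∀ g, Z⁻¹ * g = g * Z⁻¹ := by
  intro g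
  have h := hZ g
  calc Z⁻¹ * g = Z⁻¹ * (g * Z) * Z⁻¹ := by simp [mul_assoc]
    _ = Z⁻¹ * (Z * g) * Z⁻¹ := by rw [h]
    _ = g * Z⁻¹ := by simp

theorem twconj_central388 {Z : Γ} (hZ : ∀ g, Z * g = g * Z) (s : Γ →* Γ) (x y : Γ) :
    x⁻¹ * (Z * y) * s x = Z * (x⁻¹ * y * s x) := by
  rw [central_mul388 hZ, mul_assoc Z]

theorem isBiInv_transl388 {U : Γ → Prop} {φ : Γ → ℂ} {Z : Γ} (hZ : ∀ g, Z * g = g * Z)
    (h : IsBiInv U φ) : IsBiInv U (transl388 Z φ) := by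
  intro u u' g hu hu'
  show φ (Z * (u * g * u')) = φ (Z * g)
  have e : Z * (u * g * u') = u * (Z * g) * u' := by
    rw [central_mul388 hZ u g, mul_assoc Z, mul_assoc u]
  rw [e]
  exact h u u' (Z * g) hu hu'

theorem hasFinSupp_transl388 {U : Γ → Prop} {φ : Γ → ℂ} (Z : Γ)
    (h : HasFinSupp U φ) : HasFinSupp U (transl388 Z φ) := by
  classical
  obtain ⟨F, hF⟩ := h
  refine ⟨F.image (fun x => Z⁻¹ * x), ?_⟩
  intro g hg
  obtain ⟨x, hx, u, hu, hxu⟩ := hF (Z * g) hg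
  refine ⟨Z⁻¹ * x, Finset.mem_image_of_mem _ hx, u, hu, ?_⟩
  rw [mul_assoc, ← hxu, inv_mul_cancel_left]

theorem cIndex_transl388 (U : Γ → Prop) (C : Γ → Γ → Prop) (Z : Γ)
    (hC : ∀ y t, C (Z * y) t ↔ C y t) (y : Γ) : cIndex U C (Z * y) = cIndex U C y := by
  unfold cIndex
  simp only [hC]

/-- **Orbit sums and central translations.**  `TO_{Z δ}(φ) = TO_δ(φ(Z ·))`. -/
theorem isOrbSumGen_transl388 (s : Γ →* Γ) (U : Γ → Prop) (C : Γ → Γ → Prop) (φ : Γ → ℂ)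
    {Z : Γ} (hZ : ∀ g, Z * g = g * Z) (hC : ∀ y t, C (Z * y) t ↔ C y t) (δ : Γ) (c : ℂ)
    (h : IsOrbSumGen s U C φ (Z * δ) c) : IsOrbSumGen s U C (transl388 Z φ) δ c := by
  classical
  obtain ⟨R, h1, h2, h3, h4⟩ := h
  have hinj : Function.Injective (fun y : Γ => Z⁻¹ * y) := fun a b hab => by
    simpa using hab
  refine ⟨R.image (fun y => Z⁻¹ * y), ?_, ?_, ?_, ?_⟩
  · intro y' hy'
    obtain ⟨y, hy, rfl⟩ := Finset.mem_image.1 hy'
    obtain ⟨x, hx⟩ := h1 y hy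
    refine ⟨x, ?_⟩
    rw [hx, twconj_central388 hZ, inv_mul_cancel_left]
  · intro y₁' hy₁' y₂' hy₂' hu
    obtain ⟨y₁, hy₁, rfl⟩ := Finset.mem_image.1 hy₁'
    obtain ⟨y₂, hy₂, rfl⟩ := Finset.mem_image.1 hy₂'
    obtain ⟨u, hu, hyu⟩ := hu
    have : y₁ = y₂ := by
      apply h2 y₁ hy₁ y₂ hy₂
      refine ⟨u, hu, ?_⟩
      have e : y₂ = Z * (Z⁻¹ * y₂) := by simp
      rw [e, hyu, ← twconj_central388 hZ, mul_inv_cancel_left]
    rw [this]
  · intro y hy hne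
    obtain ⟨x, hx⟩ := hy
    have hcl : ∃ x' : Γ, Z * y = x'⁻¹ * (Z * δ) * s x' := ⟨x, by rw [hx, twconj_central388 hZ]⟩
    obtain ⟨y₀, hy₀, u, hu, hyu⟩ := h3 (Z * y) hcl hne
    refine ⟨Z⁻¹ * y₀, Finset.mem_image_of_mem _ hy₀, u, hu, ?_⟩
    have e : y = Z⁻¹ * (Z * y) := by simp
    rw [e, hyu, twconj_central388 (central_inv388 hZ)]
  · rw [h4, Finset.sum_image (fun a _ b _ hab => hinj hab)]
    refine Finset.sum_congr rfl ?_
    intro y _
    have e : cIndex U C (Z⁻¹ * y) = cIndex U C y := by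
      have := cIndex_transl388 U C Z hC (Z⁻¹ * y)
      rw [mul_inv_cancel_left] at this
      exact this.symm
    simp only [transl388, mul_inv_cancel_left, e]

theorem isConj_central_mul388 {Z : Γ} (hZ : ∀ g, Z * g = g * Z) {a b : Γ} (h : IsConj a b) :
    IsConj (Z * a) (Z * b) := by
  obtain ⟨c, hc⟩ := isConj_iff.1 h
  refine isConj_iff.2 ⟨c, ?_⟩
  rw [central_mul388 hZ, mul_assoc Z, hc]

end Generic

/-! ## Scalar matrices in `GL₂` -/

section Scalar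

variable {R : Type} [CommRing R]

/-- The scalar matrix `u` in `GL₂(R)`. -/
abbrev sc388 (u : Rˣ) : GL (Fin 2) R := Matrix.GeneralLinearGroup.scalar (Fin 2) u

theorem sc_comm388 (u : Rˣ) (g : GL (Fin 2) R) : sc388 u * g = g * sc388 u :=
  Matrix.GeneralLinearGroup.scalar_commute u g

theorem sc_mul_coe388 (u : Rˣ) (g : GL (Fin 2) R) :
    ((sc388 u * g : GL (Fin 2) R) : Matrix (Fin 2) (Fin 2) R)
      = (u : R) • (g : Matrix (Fin 2) (Fin 2) R) := by
  rw [Units.val_mul, Matrix.GeneralLinearGroup.coe_scalar]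
  ext a b
  simp [Matrix.scalar_apply, Matrix.diagonal_mul]

theorem trace_sc_mul388 (u : Rˣ) (g : GL (Fin 2) R) :
    ((sc388 u * g : GL (Fin 2) R) : Matrix (Fin 2) (Fin 2) R).trace
      = (u : R) * (g : Matrix (Fin 2) (Fin 2) R).trace := by
  rw [sc_mul_coe388, Matrix.trace_smul, smul_eq_mul]

theorem det_sc_mul388 (u : Rˣ) (g : GL (Fin 2) R) :
    ((sc388 u * g : GL (Fin 2) R) : Matrix (Fin 2) (Fin 2) R).det
      = (u : R) ^ 2 * (g : Matrix (Fin 2) (Fin 2) R).det := by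
  rw [sc_mul_coe388, Matrix.det_smul, Fintype.card_fin]

theorem glAut_sc388 (s : R ≃+* R) (u : Rˣ) :
    glAut s (sc388 u) = sc388 (Units.map (s : R →* R) u) := by
  apply Units.ext
  ext a b
  by_cases hab : a = b
  · subst hab
    simp [glAut, Matrix.scalar_apply]
  · simp [glAut, Matrix.scalar_apply, hab]

theorem map_sc388 {R' : Type} [CommRing R'] (i : R →+* R') (u : Rˣ) :
    Matrix.GeneralLinearGroup.map i (sc388 u) = sc388 (Units.map (i : R →* R') u) := by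
  apply Units.ext
  ext a b
  by_cases hab : a = b
  · subst hab
    simp [Matrix.scalar_apply]
  · simp [Matrix.scalar_apply, hab]

/-- The norm of a unit: `u · s(u) ⋯ s^{n-1}(u)`. -/
def nrm388 (s : R ≃+* R) : ℕ → Rˣ → Rˣ
  | 0, _ => 1
  | (n + 1), u => u * Units.map (s : R →* R) (nrm388 s n u)

theorem nrm_coe388 (s : R ≃+* R) (n : ℕ) (u : Rˣ) :
    ((nrm388 s n u : Rˣ) : R) = ∏ j ∈ Finset.range n, (s ^ j) (u : R) := by
  induction n with
  | zero => simp [nrm388]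
  | succ n ih =>
    have h1 : ((nrm388 s (n + 1) u : Rˣ) : R) = (u : R) * s ((nrm388 s n u : Rˣ) : R) := rfl
    have h2 : ∀ j : ℕ, (s ^ (j + 1)) (u : R) = s ((s ^ j) (u : R)) := by
      intro j
      rw [pow_succ']
      rfl
    rw [h1, ih, Finset.prod_range_succ', map_prod, mul_comm]
    congr 1
    exact (Finset.prod_congr rfl fun j _ => (h2 j).symm)

/-- `N(Z δ) = N(Z) N(δ)` for a scalar matrix `Z`. -/
theorem twNorm_sc_mul388 (s : R ≃+* R) (n : ℕ) (u : Rˣ) (δ : GL (Fin 2) R) :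
    twNorm s n (sc388 u * δ) = sc388 (nrm388 s n u) * twNorm s n δ := by
  unfold twNorm
  induction n with
  | zero => simp [twN, nrm388]
  | succ n ih =>
    have hs : sc388 (nrm388 s (n + 1) u)
        = sc388 u * sc388 (Units.map (s : R →* R) (nrm388 s n u)) :=
      map_mul (Matrix.GeneralLinearGroup.scalar (Fin 2)) u _
    show sc388 u * δ * glAut s (twN (glAut s) n (sc388 u * δ))
      = sc388 (nrm388 s (n + 1) u) * (δ * glAut s (twN (glAut s) n δ))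
    rw [ih, map_mul, glAut_sc388, hs]
    have hc := sc_comm388 (Units.map (s : R →* R) (nrm388 s n u)) δ
    calc sc388 u * δ * (sc388 (Units.map (s : R →* R) (nrm388 s n u))
            * glAut s (twN (glAut s) n δ))
        = sc388 u * (δ * sc388 (Units.map (s : R →* R) (nrm388 s n u)))
            * glAut s (twN (glAut s) n δ) := by simp only [mul_assoc]
      _ = sc388 u * (sc388 (Units.map (s : R →* R) (nrm388 s n u)) * δ)
            * glAut s (twN (glAut s) n δ) := by rw [hc]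
      _ = sc388 u * sc388 (Units.map (s : R →* R) (nrm388 s n u))
            * (δ * glAut s (twN (glAut s) n δ)) := by simp only [mul_assoc]

theorem nrm_inv388 (s : R ≃+* R) (n : ℕ) (u : Rˣ) :
    nrm388 s n u⁻¹ = (nrm388 s n u)⁻¹ := by
  induction n with
  | zero => simp [nrm388]
  | succ n ih =>
    show u⁻¹ * Units.map (s : R →* R) (nrm388 s n u⁻¹)
      = (u * Units.map (s : R →* R) (nrm388 s n u))⁻¹
    rw [ih, map_inv, mul_inv]

theorem isReg_sc_mul388 (u : Rˣ) (γ : GL (Fin 2) R) (h : IsReg γ) : IsReg (sc388 u * γ) := by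
  unfold IsReg disc at h ⊢
  rw [trace_sc_mul388, det_sc_mul388]
  have e : ((u : R) * (γ : Matrix (Fin 2) (Fin 2) R).trace) ^ 2
      - 4 * ((u : R) ^ 2 * (γ : Matrix (Fin 2) (Fin 2) R).det)
      = (u : R) ^ 2 * ((γ : Matrix (Fin 2) (Fin 2) R).trace ^ 2
          - 4 * (γ : Matrix (Fin 2) (Fin 2) R).det) := by ring
  rw [e]
  exact (u.isUnit.pow 2).mul h

theorem sc_inv388 (u : Rˣ) : (sc388 u)⁻¹ = sc388 u⁻¹ :=
  (map_inv (Matrix.GeneralLinearGroup.scalar (Fin 2)) u).symm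

end Scalar

/-! ## The local part -/

section Local

variable {k : Type} [Field k] [Valued k Γ₀]

theorem inTwCentC_sc388 (s : k ≃+* k) (u : kˣ) (y t : GL (Fin 2) k) :
    InTwCentC s (sc388 u * y) t ↔ InTwCentC s y t := by
  unfold InTwCentC InTwCent
  rw [twconj_central388 (sc_comm388 u)]
  constructor
  · rintro ⟨h, h'⟩
    exact ⟨mul_left_cancel h, h'⟩
  · rintro ⟨h, h'⟩
    exact ⟨by rw [h], h'⟩

/-- `TO_δ(φ) = TO_{Z⁻¹ δ}(φ(Z ·))` for a scalar matrix `Z`. -/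
theorem isTwOrbSum_transl388 (s : k ≃+* k) (n : ℕ) (φ : GL (Fin 2) k → ℂ) (u : kˣ)
    (δ : GL (Fin 2) k) (c : ℂ) (h : IsTwOrbSum s n φ δ c) :
    IsTwOrbSum s n (transl388 (sc388 u) φ) ((sc388 u)⁻¹ * δ) c := by
  unfold IsTwOrbSum at h ⊢
  apply isOrbSumGen_transl388 _ _ _ _ (sc_comm388 u) (inTwCentC_sc388 s u)
  rwa [mul_inv_cancel_left]

/-- The `χ`-ball around `(2z, z²)` of radius `exp(-(N₁ + 2|log v z|))` is mapped into the
`χ`-ball around `(2, 1)` of radius `exp(-N₁)` by the translation by `z⁻¹`. -/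
theorem inChiBall_transl388 (z : k) (hz : z ≠ 0) (N₁ : ℤ) (γ : GL (Fin 2) k)
    (h : InChiBall783 (2 * z) (z ^ 2) (N₁ + 2 * |WithZero.log (Valued.v z)|) γ) :
    InChiBall783 2 1 N₁ ((sc388 (Units.mk0 z hz))⁻¹ * γ) := by
  obtain ⟨h1, h2⟩ := h
  have hvz : Valued.v z ≠ 0 := (Valuation.ne_zero_iff _).2 hz
  have hL : Valued.v z = WithZero.exp (WithZero.log (Valued.v z)) := (WithZero.exp_log hvz).symm
  set L : ℤ := WithZero.log (Valued.v z) with hLdef
  have hinv : Valued.v (z⁻¹) = WithZero.exp (-L) := by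
    rw [map_inv₀, hL, WithZero.exp_neg]
  have habs1 : -L ≤ |L| := neg_le_abs L
  have habs0 : 0 ≤ |L| := abs_nonneg L
  rw [sc_inv388]
  refine ⟨?_, ?_⟩
  · rw [trace_sc_mul388]
    have e : ((Units.mk0 z hz)⁻¹ : kˣ).val * (γ : Matrix (Fin 2) (Fin 2) k).trace - 2
        = z⁻¹ * ((γ : Matrix (Fin 2) (Fin 2) k).trace - 2 * z) := by
      have : ((Units.mk0 z hz)⁻¹ : kˣ).val = z⁻¹ := rfl
      rw [this]
      field_simp
    rw [e, map_mul, hinv]
    calc WithZero.exp (-L) * Valued.v ((γ : Matrix (Fin 2) (Fin 2) k).trace - 2 * z)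
        ≤ WithZero.exp (-L) * WithZero.exp (-(N₁ + 2 * |L|)) := mul_le_mul_right h1 _
      _ = WithZero.exp (-L + -(N₁ + 2 * |L|)) := (WithZero.exp_add _ _).symm
      _ ≤ WithZero.exp (-N₁) := WithZero.exp_le_exp.2 (by linarith)
  · rw [det_sc_mul388]
    have e : ((Units.mk0 z hz)⁻¹ : kˣ).val ^ 2 * (γ : Matrix (Fin 2) (Fin 2) k).det - 1
        = z⁻¹ * (z⁻¹ * ((γ : Matrix (Fin 2) (Fin 2) k).det - z ^ 2)) := by
      have : ((Units.mk0 z hz)⁻¹ : kˣ).val = z⁻¹ := rfl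
      rw [this]
      field_simp
    rw [e, map_mul, map_mul, hinv]
    calc WithZero.exp (-L) * (WithZero.exp (-L)
            * Valued.v ((γ : Matrix (Fin 2) (Fin 2) k).det - z ^ 2))
        ≤ WithZero.exp (-L) * (WithZero.exp (-L) * WithZero.exp (-(N₁ + 2 * |L|))) :=
          mul_le_mul_right (mul_le_mul_right h2 _) _
      _ = WithZero.exp (-L + (-L + -(N₁ + 2 * |L|))) := by
          rw [WithZero.exp_add, WithZero.exp_add]
      _ ≤ WithZero.exp (-N₁) := WithZero.exp_le_exp.2 (by linarith)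

end Local

/-! ## The norm of the scalar matrix -/

section Norm

variable {k k' : Type} [Field k] [Field k']

theorem nrm_eq_map388 (l : ℕ) (i : k →+* k') (s : k' ≃+* k') (ζu : k'ˣ) (zu : kˣ)
    (h : i (zu : k) = ∏ j ∈ Finset.range l, (s ^ j) (ζu : k')) :
    nrm388 s l ζu = Units.map (i : k →* k') zu := by
  apply Units.ext
  rw [nrm_coe388, ← h]
  rfl

/-- `N(Z δ) = ι(W) N(δ)`. -/
theorem twNorm_sc_mul_eq388 (l : ℕ) (i : k →+* k') (s : k' ≃+* k') (ζu : k'ˣ) (zu : kˣ)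
    (h : i (zu : k) = ∏ j ∈ Finset.range l, (s ^ j) (ζu : k')) (δ : GL (Fin 2) k') :
    twNorm s l (sc388 ζu * δ)
      = Matrix.GeneralLinearGroup.map i (sc388 zu) * twNorm s l δ := by
  rw [twNorm_sc_mul388, nrm_eq_map388 l i s ζu zu h, map_sc388]

/-- `N(Z⁻¹ δ) = ι(W⁻¹) N(δ)`. -/
theorem twNorm_sc_inv_mul_eq388 (l : ℕ) (i : k →+* k') (s : k' ≃+* k') (ζu : k'ˣ) (zu : kˣ)
    (h : i (zu : k) = ∏ j ∈ Finset.range l, (s ^ j) (ζu : k')) (δ : GL (Fin 2) k') :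
    twNorm s l ((sc388 ζu)⁻¹ * δ)
      = Matrix.GeneralLinearGroup.map i (sc388 zu)⁻¹ * twNorm s l δ := by
  rw [sc_inv388, twNorm_sc_mul388, nrm_inv388, nrm_eq_map388 l i s ζu zu h, sc_inv388,
    map_sc388, map_inv]

theorem isConj_transl388 (l : ℕ) (i : k →+* k') (s : k' ≃+* k') (ζu : k'ˣ) (zu : kˣ)
    (h : i (zu : k) = ∏ j ∈ Finset.range l, (s ^ j) (ζu : k')) (δ : GL (Fin 2) k')
    (γ : GL (Fin 2) k)
    (hc : IsConj (twNorm s l δ) (Matrix.GeneralLinearGroup.map i γ)) :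
    IsConj (twNorm s l ((sc388 ζu)⁻¹ * δ))
      (Matrix.GeneralLinearGroup.map i ((sc388 zu)⁻¹ * γ)) := by
  rw [twNorm_sc_inv_mul_eq388 l i s ζu zu h, map_mul, sc_inv388, map_sc388]
  exact isConj_central_mul388 (sc_comm388 _) hc

theorem isNormFrom_of_transl388 (l : ℕ) (i : k →+* k') (s : k' ≃+* k') (ζu : k'ˣ) (zu : kˣ)
    (h : i (zu : k) = ∏ j ∈ Finset.range l, (s ^ j) (ζu : k')) (γ : GL (Fin 2) k)
    (hn : IsNormFrom l i s ((sc388 zu)⁻¹ * γ)) : IsNormFrom l i s γ := by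
  obtain ⟨δ₁, hδ₁⟩ := hn
  refine ⟨sc388 ζu * δ₁, ?_⟩
  rw [twNorm_sc_mul_eq388 l i s ζu zu h]
  have e : Matrix.GeneralLinearGroup.map i γ
      = Matrix.GeneralLinearGroup.map i (sc388 zu)
        * Matrix.GeneralLinearGroup.map i ((sc388 zu)⁻¹ * γ) := by
    rw [← map_mul, mul_inv_cancel_left]
  rw [e, map_sc388]
  exact isConj_central_mul388 (sc_comm388 _) hδ₁

end Norm

/-! ## The leaf -/

/-- **T6.18g1 `TranslC783`** (VERBATIM): local matching at the identity gives local matching at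
every central norm. -/
theorem translC388 : TranslC783 := by
  intro hOne k k' _ _ _ _ q l e i s n φ hd z hz hnorm
  obtain ⟨ζ, hζ⟩ := hnorm
  have hζ0 : ζ ≠ 0 := by
    rintro rfl
    obtain ⟨l', rfl⟩ : ∃ l', l = l' + 1 := ⟨l - 1, (Nat.succ_pred_eq_of_pos hd.prime.pos).symm⟩
    rw [Finset.prod_range_succ'] at hζ
    simp only [pow_zero, RingAut.one_apply, mul_zero] at hζ
    exact hz ((map_eq_zero i).1 hζ)
  have hnu : i ((Units.mk0 z hz : kˣ) : k)
      = ∏ j ∈ Finset.range l, (s ^ j) ((Units.mk0 ζ hζ0 : k'ˣ) : k') := hζ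
  have hd' : BadData783 k k' q l e i s n (transl388 (sc388 (Units.mk0 ζ hζ0)) φ) :=
    ⟨hd.hk, hd.hk', hd.ext, hd.prime, isBiInv_transl388 (sc_comm388 _) hd.inv,
      hasFinSupp_transl388 _ hd.supp⟩
  obtain ⟨N₁, m, f₁, hf₁b, hf₁s, hM1, hM2⟩ :=
    hOne k k' q l e i s n (transl388 (sc388 (Units.mk0 ζ hζ0)) φ) hd'
  have hO_of : ∀ (γ : GL (Fin 2) k) (c' : ℂ),
      IsOrbSum m (transl388 (sc388 (Units.mk0 z hz))⁻¹ f₁) γ c' →
        IsOrbSum m f₁ ((sc388 (Units.mk0 z hz))⁻¹ * γ) c' := by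
    intro γ c' hO
    have := isTwOrbSum_transl388 (RingEquiv.refl k) m _ (Units.mk0 z hz) γ c' hO
    rwa [transl_transl_inv388] at this
  refine ⟨N₁ + 2 * |WithZero.log (Valued.v z)|, m,
    transl388 (sc388 (Units.mk0 z hz))⁻¹ f₁,
    isBiInv_transl388 (central_inv388 (sc_comm388 _)) hf₁b,
    hasFinSupp_transl388 _ hf₁s, ?_, ?_⟩
  · intro δ γ c c' hγ hball hconj hTO hO
    refine hM1 ((sc388 (Units.mk0 ζ hζ0))⁻¹ * δ) ((sc388 (Units.mk0 z hz))⁻¹ * γ) c c'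
      ?_ (inChiBall_transl388 z hz N₁ γ hball)
      (isConj_transl388 l i s _ _ hnu δ γ hconj)
      (isTwOrbSum_transl388 s n φ _ δ c hTO) (hO_of γ c' hO)
    rw [sc_inv388]
    exact isReg_sc_mul388 _ γ hγ
  · intro γ c' hγ hball hnn hO
    refine hM2 ((sc388 (Units.mk0 z hz))⁻¹ * γ) c' ?_ (inChiBall_transl388 z hz N₁ γ hball)
      (fun hn => hnn (isNormFrom_of_transl388 l i s _ _ hnu γ hn)) (hO_of γ c' hO)
    rw [sc_inv388]
    exact isReg_sc_mul388 _ γ hγ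

end Fermat.Agent.LT.T6.H388

end
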