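import Fermat.Agent.LT.T6.H385.QuatSpec
import Fermat.Agent.LT.T6.H388.Transl

/-!
# Row LT, tower T6, leaf T6.18i.4 `TwReduceC385` (reduction to `w δ₀`, `w ∈ D^×` near `1`)

OFF-MAIN (helper388).  Proves `twReduce_of_sqrt388 : SqrtNearC385 → TwReduceC385`
(`TwReduceC385` VERBATIM; the row needs `SqrtNearC385`, leaf Q1b.1 of `QuatSpec.lean`).

Steps (header of `QuatSpec.lean`, 3, first bullet):
1. `σ`-conjugate `δ` to `δ₁` with `δ₁ σ(δ₁) = ι γ` (`normalize388`);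
2. `W = ι w₁`, `w₁ = a + b γ`, `w₁² = γ / z` (`SqrtNearC385`); `ζ = δ₁ W⁻¹` satisfies
   `ζ σ(ζ) = z` (`zeta_norm388`);
3. `x = [e₁ | ζ e₁]` is invertible because `z` is not a norm, and `ζ σ(x) = x δ₀`
   (`exists_frame388`);
4. `w = x⁻¹ W x ∈ D^×`, `w δ₀ = x⁻¹ δ₁ σ(x)` (`reduce_alg388`);
5. `Nrd(w - 1) = N(P) - z N(R)` is small and `Nrd` is anisotropic: `P = w₀₀ - 1` and `R = w₁₀`
   are small (`aniso388`, squares near `1` from `SqrtNearC385`: `sq_near_one388`); the same for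
   `w⁻¹`.
-/

set_option autoImplicit false

open scoped Matrix

noncomputable section

namespace Fermat.Agent.LT.T6.H388

open Fermat.Agent.LT.T6 Fermat.Agent.LT.T6.H783 Fermat.Agent.LT.T6.H385

/-! ## 1. Algebra over the fields -/

section Alg

variable {k k' : Type} [Field k] [Field k']

theorem twNorm_two388 (s : k' ≃+* k') (δ : GL (Fin 2) k') :
    twNorm s 2 δ = δ * glAut s δ := by
  simp [twNorm, twN]

theorem glAut_coe388 (s : k' ≃+* k') (g : GL (Fin 2) k') :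
    ((glAut s g : GL (Fin 2) k') : Matrix (Fin 2) (Fin 2) k')
      = (g : Matrix (Fin 2) (Fin 2) k').map s := rfl

theorem map_coe388 (i : k →+* k') (g : GL (Fin 2) k) :
    ((Matrix.GeneralLinearGroup.map i g : GL (Fin 2) k') : Matrix (Fin 2) (Fin 2) k')
      = (g : Matrix (Fin 2) (Fin 2) k).map i := rfl

theorem glAut_glAut388 (s : k' ≃+* k') (h2 : ∀ y, s (s y) = y) (g : GL (Fin 2) k') :
    glAut s (glAut s g) = g := by
  apply Units.ext
  ext a b
  simp [glAut_coe388, h2]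

theorem glAut_map388 (i : k →+* k') (s : k' ≃+* k') (hfix : ∀ x : k, s (i x) = i x)
    (h : GL (Fin 2) k) :
    glAut s (Matrix.GeneralLinearGroup.map i h) = Matrix.GeneralLinearGroup.map i h := by
  apply Units.ext
  ext a b
  simp [glAut_coe388, hfix]

/-- Step 1: `σ`-conjugate `δ` to an element whose norm is `g` on the nose. -/
theorem normalize388 (s : k' ≃+* k') (h2 : ∀ y, s (s y) = y) (δ g : GL (Fin 2) k')
    (hc : IsConj (twNorm s 2 δ) g) :
    ∃ δ₁ : GL (Fin 2) k', IsTwConj s δ δ₁ ∧ δ₁ * glAut s δ₁ = g := by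
  obtain ⟨c, hc⟩ := isConj_iff.1 hc
  rw [twNorm_two388] at hc
  refine ⟨c * δ * (glAut s c)⁻¹, ⟨c⁻¹, by simp⟩, ?_⟩
  simp only [map_mul, map_inv, glAut_glAut388 s h2]
  rw [← hc]
  group

/-- Step 2: `ζ = δ₁ W⁻¹` has norm `S` if `δ₁ σ(δ₁) = G = S W²`, `W` commutes with `δ₁`, `σ W = W`,
`S` central. -/
theorem zeta_norm388 (s : k' ≃+* k') (δ₁ G W S : GL (Fin 2) k')
    (hN : δ₁ * glAut s δ₁ = G) (hG : G = S * W * W) (hS : ∀ g, S * g = g * S)
    (hWδ : W * δ₁ = δ₁ * W) (hσW : glAut s W = W) :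
    (δ₁ * W⁻¹) * glAut s (δ₁ * W⁻¹) = S := by
  have hσδ : glAut s δ₁ = δ₁⁻¹ * G := by rw [← hN]; group
  have hWG : W * G = G * W := by
    rw [hG]
    calc W * (S * W * W) = (W * S) * W * W := by group
      _ = (S * W) * W * W := by rw [hS W]
      _ = S * W * W * W := by group
  have hWinvδ : W⁻¹ * δ₁⁻¹ = δ₁⁻¹ * W⁻¹ := by
    rw [← mul_inv_rev, ← mul_inv_rev, hWδ]
  have hWinvG : W⁻¹ * G = G * W⁻¹ := by
    calc W⁻¹ * G = W⁻¹ * (G * W) * W⁻¹ := by group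
      _ = W⁻¹ * (W * G) * W⁻¹ := by rw [hWG]
      _ = G * W⁻¹ := by group
  rw [map_mul, map_inv, hσW, hσδ]
  calc δ₁ * W⁻¹ * (δ₁⁻¹ * G * W⁻¹)
      = δ₁ * (W⁻¹ * δ₁⁻¹) * G * W⁻¹ := by group
    _ = δ₁ * (δ₁⁻¹ * W⁻¹) * G * W⁻¹ := by rw [hWinvδ]
    _ = (W⁻¹ * G) * W⁻¹ := by group
    _ = (G * W⁻¹) * W⁻¹ := by rw [hWinvG]
    _ = S := by rw [hG]; group

/-- Step 3: the frame `x = [e₁ | ζ e₁]`. -/
theorem exists_frame388 (i : k →+* k') (s : k' ≃+* k') (z : k) (hz : z ≠ 0)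
    (hnn : ¬ IsFieldNorm783 2 i s z) (ζ : GL (Fin 2) k')
    (hζ : (ζ : Matrix (Fin 2) (Fin 2) k') * (ζ : Matrix (Fin 2) (Fin 2) k').map s
      = (i z) • (1 : Matrix (Fin 2) (Fin 2) k')) :
    ∃ x δ₀ : GL (Fin 2) k', IsQuatBase385 (i z) δ₀ ∧ ζ * glAut s x = x * δ₀ := by
  have h00 := congrFun (congrFun hζ 0) 0
  have h10 := congrFun (congrFun hζ 1) 0
  simp only [Matrix.mul_apply, Fin.sum_univ_two, Matrix.map_apply, Matrix.smul_apply,
    Matrix.one_apply_eq, smul_eq_mul, mul_one] at h00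
  simp only [Matrix.mul_apply, Fin.sum_univ_two, Matrix.map_apply, Matrix.smul_apply,
    smul_eq_mul] at h10
  have h10' : (ζ : Matrix (Fin 2) (Fin 2) k') 1 0 * s ((ζ : Matrix (Fin 2) (Fin 2) k') 0 0)
      + (ζ : Matrix (Fin 2) (Fin 2) k') 1 1 * s ((ζ : Matrix (Fin 2) (Fin 2) k') 1 0) = 0 := by
    rw [h10]
    simp
  have hc : (ζ : Matrix (Fin 2) (Fin 2) k') 1 0 ≠ 0 := by
    intro hc0
    apply hnn
    refine ⟨(ζ : Matrix (Fin 2) (Fin 2) k') 0 0, ?_⟩
    rw [hc0, map_zero, mul_zero, add_zero] at h00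
    rw [Finset.prod_range_succ, Finset.prod_range_one, pow_zero, pow_one, ← h00]
    rfl
  have hiz : i z ≠ 0 := (map_ne_zero i).2 hz
  have hdx : (!![1, (ζ : Matrix (Fin 2) (Fin 2) k') 0 0;
      0, (ζ : Matrix (Fin 2) (Fin 2) k') 1 0] : Matrix (Fin 2) (Fin 2) k').det ≠ 0 := by
    rw [Matrix.det_fin_two_of]
    simpa using hc
  have hd0 : (!![0, i z; 1, 0] : Matrix (Fin 2) (Fin 2) k').det ≠ 0 := by
    rw [Matrix.det_fin_two_of]
    simpa using hiz
  refine ⟨Matrix.GeneralLinearGroup.mkOfDetNeZero _ hdx,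
    Matrix.GeneralLinearGroup.mkOfDetNeZero _ hd0, rfl, ?_⟩
  apply Units.ext
  rw [Units.val_mul, Units.val_mul, glAut_coe388]
  show (ζ : Matrix (Fin 2) (Fin 2) k')
      * (!![1, (ζ : Matrix (Fin 2) (Fin 2) k') 0 0;
          0, (ζ : Matrix (Fin 2) (Fin 2) k') 1 0] : Matrix (Fin 2) (Fin 2) k').map s
    = !![1, (ζ : Matrix (Fin 2) (Fin 2) k') 0 0; 0, (ζ : Matrix (Fin 2) (Fin 2) k') 1 0]
      * !![0, i z; 1, 0]
  ext a b
  fin_cases a <;> fin_cases b <;>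
    simp [Matrix.mul_apply, Fin.sum_univ_two, h00, h10']

theorem sc_coe_smul388 (u : k'ˣ) :
    ((sc388 u : GL (Fin 2) k') : Matrix (Fin 2) (Fin 2) k')
      = (u : k') • (1 : Matrix (Fin 2) (Fin 2) k') := by
  have h := sc_mul_coe388 u (1 : GL (Fin 2) k')
  rwa [mul_one, Units.val_one] at h

/-- Step 4: the algebraic reduction. -/
theorem reduce_alg388 (i : k →+* k') (s : k' ≃+* k') (hfix : ∀ x : k, s (i x) = i x)
    (h2 : ∀ y, s (s y) = y) (z : k) (hz : z ≠ 0) (hnn : ¬ IsFieldNorm783 2 i s z)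
    (δ : GL (Fin 2) k') (γ w₁ : GL (Fin 2) k) (a b : k)
    (hw : (w₁ : Matrix (Fin 2) (Fin 2) k) = a • (1 : Matrix (Fin 2) (Fin 2) k)
      + b • (γ : Matrix (Fin 2) (Fin 2) k))
    (hww : (w₁ : Matrix (Fin 2) (Fin 2) k) * (w₁ : Matrix (Fin 2) (Fin 2) k)
      = z⁻¹ • (γ : Matrix (Fin 2) (Fin 2) k))
    (hc : IsConj (twNorm s 2 δ) (Matrix.GeneralLinearGroup.map i γ)) :
    ∃ w δ₀ x : GL (Fin 2) k', IsQuatBase385 (i z) δ₀ ∧ InQuat385 s δ₀ w ∧
      IsTwConj s δ (w * δ₀) ∧ w = x⁻¹ * Matrix.GeneralLinearGroup.map i w₁ * x := by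
  obtain ⟨δ₁, ⟨y, hy⟩, hN⟩ := normalize388 s h2 δ _ hc
  -- `γ = z w₁²` in `GL₂(k)`
  have hγ : γ = sc388 (Units.mk0 z hz) * (w₁ * w₁) := by
    apply Units.ext
    rw [sc_mul_coe388, Units.val_mul, hww, smul_smul]
    simp [hz]
  have hG : Matrix.GeneralLinearGroup.map i γ
      = sc388 (Units.map (i : k →* k') (Units.mk0 z hz))
        * Matrix.GeneralLinearGroup.map i w₁ * Matrix.GeneralLinearGroup.map i w₁ := by
    conv_lhs => rw [hγ]
    rw [map_mul, map_mul, map_sc388, mul_assoc]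
  -- `δ₁` commutes with `ι γ`
  have hσN : glAut s δ₁ * δ₁ = Matrix.GeneralLinearGroup.map i γ := by
    have := congrArg (glAut s) hN
    rwa [map_mul, glAut_glAut388 s h2, glAut_map388 i s hfix] at this
  have hcomm : δ₁ * Matrix.GeneralLinearGroup.map i γ
      = Matrix.GeneralLinearGroup.map i γ * δ₁ := by
    conv_lhs => rw [← hσN]
    conv_rhs => rw [← hN]
    group
  have hcomm' : (δ₁ : Matrix (Fin 2) (Fin 2) k') * (γ : Matrix (Fin 2) (Fin 2) k).map i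
      = (γ : Matrix (Fin 2) (Fin 2) k).map i * (δ₁ : Matrix (Fin 2) (Fin 2) k') := by
    have := congrArg Units.val hcomm
    rwa [Units.val_mul, Units.val_mul, map_coe388] at this
  -- `W = ι w₁` commutes with `δ₁`
  have hWval : ((Matrix.GeneralLinearGroup.map i w₁ : GL (Fin 2) k') :
      Matrix (Fin 2) (Fin 2) k') = (i a) • (1 : Matrix (Fin 2) (Fin 2) k')
        + (i b) • (γ : Matrix (Fin 2) (Fin 2) k).map i := by
    rw [map_coe388, hw]
    ext p q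
    by_cases hpq : p = q
    · subst hpq
      simp [Matrix.map_apply]
    · simp [Matrix.map_apply, hpq]
  have hWδ : Matrix.GeneralLinearGroup.map i w₁ * δ₁
      = δ₁ * Matrix.GeneralLinearGroup.map i w₁ := by
    apply Units.ext
    rw [Units.val_mul, Units.val_mul, hWval, add_mul, mul_add, Matrix.smul_mul,
      Matrix.smul_mul, Matrix.mul_smul, Matrix.mul_smul, one_mul, mul_one, hcomm']
  have hζ := zeta_norm388 s δ₁ _ (Matrix.GeneralLinearGroup.map i w₁)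
    (sc388 (Units.map (i : k →* k') (Units.mk0 z hz))) hN hG (sc_comm388 _) hWδ
    (glAut_map388 i s hfix w₁)
  have hζ' : ((δ₁ * (Matrix.GeneralLinearGroup.map i w₁)⁻¹ : GL (Fin 2) k') :
        Matrix (Fin 2) (Fin 2) k')
      * ((δ₁ * (Matrix.GeneralLinearGroup.map i w₁)⁻¹ : GL (Fin 2) k') :
        Matrix (Fin 2) (Fin 2) k').map s = (i z) • (1 : Matrix (Fin 2) (Fin 2) k') := by
    have := congrArg Units.val hζ
    rw [Units.val_mul, glAut_coe388, sc_coe_smul388] at this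
    exact this
  obtain ⟨x, δ₀, hδ₀, hx⟩ := exists_frame388 i s z hz hnn _ hζ'
  have hδ₀eq : δ₀ = x⁻¹ * (δ₁ * (Matrix.GeneralLinearGroup.map i w₁)⁻¹) * glAut s x := by
    rw [mul_assoc, hx]
    group
  have hwδ₀ : x⁻¹ * Matrix.GeneralLinearGroup.map i w₁ * x * δ₀ = x⁻¹ * δ₁ * glAut s x := by
    rw [hδ₀eq]
    calc x⁻¹ * Matrix.GeneralLinearGroup.map i w₁ * x
          * (x⁻¹ * (δ₁ * (Matrix.GeneralLinearGroup.map i w₁)⁻¹) * glAut s x)
        = x⁻¹ * (Matrix.GeneralLinearGroup.map i w₁ * δ₁)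
            * (Matrix.GeneralLinearGroup.map i w₁)⁻¹ * glAut s x := by group
      _ = x⁻¹ * (δ₁ * Matrix.GeneralLinearGroup.map i w₁)
            * (Matrix.GeneralLinearGroup.map i w₁)⁻¹ * glAut s x := by rw [hWδ]
      _ = x⁻¹ * δ₁ * glAut s x := by group
  refine ⟨x⁻¹ * Matrix.GeneralLinearGroup.map i w₁ * x, δ₀, x, hδ₀, ?_, ?_, rfl⟩
  · unfold InQuat385
    rw [hwδ₀, map_mul, map_mul, map_inv, glAut_map388 i s hfix, hδ₀eq]
    group
  · rw [hwδ₀, hy]
    exact ⟨y * x, by simp [mul_assoc]⟩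

/-- The entries of an element of `D^×`. -/
theorem inQuat_entries388 (s : k' ≃+* k') (c : k') (w δ₀ : GL (Fin 2) k')
    (hδ₀ : IsQuatBase385 c δ₀) (hq : InQuat385 s δ₀ w) :
    (w : Matrix (Fin 2) (Fin 2) k') 0 1 = c * s ((w : Matrix (Fin 2) (Fin 2) k') 1 0) ∧
      (w : Matrix (Fin 2) (Fin 2) k') 1 1 = s ((w : Matrix (Fin 2) (Fin 2) k') 0 0) := by
  have h := congrArg Units.val hq
  rw [Units.val_mul, Units.val_mul, glAut_coe388, hδ₀] at h
  have h00 := congrFun (congrFun h 0) 0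
  have h10 := congrFun (congrFun h 1) 0
  simp [Matrix.mul_apply, Fin.sum_univ_two] at h00 h10
  exact ⟨h00, h10⟩

theorem inQuat_inv388 (s : k' ≃+* k') (w δ₀ : GL (Fin 2) k') (hq : InQuat385 s δ₀ w) :
    InQuat385 s δ₀ w⁻¹ := by
  unfold InQuat385 at hq ⊢
  rw [map_inv]
  calc w⁻¹ * δ₀ = w⁻¹ * (δ₀ * glAut s w) * (glAut s w)⁻¹ := by group
    _ = w⁻¹ * (w * δ₀) * (glAut s w)⁻¹ := by rw [hq]
    _ = δ₀ * (glAut s w)⁻¹ := by group

theorem trace_conj388 (x U : GL (Fin 2) k') :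
    ((x⁻¹ * U * x : GL (Fin 2) k') : Matrix (Fin 2) (Fin 2) k').trace
      = (U : Matrix (Fin 2) (Fin 2) k').trace := by
  rw [Units.val_mul, Units.val_mul, Matrix.trace_mul_comm, ← mul_assoc, ← Units.val_mul,
    mul_inv_cancel, Units.val_one, one_mul]

theorem det_conj388 (x U : GL (Fin 2) k') :
    ((x⁻¹ * U * x : GL (Fin 2) k') : Matrix (Fin 2) (Fin 2) k').det
      = (U : Matrix (Fin 2) (Fin 2) k').det := by
  rw [Units.val_mul, Units.val_mul, Matrix.det_mul, Matrix.det_mul]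
  have h : (x⁻¹ : GL (Fin 2) k').val.det * x.val.det = 1 := by
    rw [← Matrix.det_mul, ← Units.val_mul, inv_mul_cancel, Units.val_one, Matrix.det_one]
  calc (x⁻¹ : GL (Fin 2) k').val.det * U.val.det * x.val.det
      = ((x⁻¹ : GL (Fin 2) k').val.det * x.val.det) * U.val.det := by ring
    _ = U.val.det := by rw [h, one_mul]

theorem trace_map388 (i : k →+* k') (u : GL (Fin 2) k) :
    ((Matrix.GeneralLinearGroup.map i u : GL (Fin 2) k') : Matrix (Fin 2) (Fin 2) k').trace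
      = i (u : Matrix (Fin 2) (Fin 2) k).trace := by
  rw [map_coe388]
  simp [Matrix.trace, Fin.sum_univ_two]

theorem det_map388 (i : k →+* k') (u : GL (Fin 2) k) :
    ((Matrix.GeneralLinearGroup.map i u : GL (Fin 2) k') : Matrix (Fin 2) (Fin 2) k').det
      = i (u : Matrix (Fin 2) (Fin 2) k).det := by
  rw [map_coe388]
  simp [Matrix.det_fin_two]

/-- The reduced norm of `w - 1` for `w = x⁻¹ (ι u) x ∈ D^×`. -/
theorem nrd_sub_one388 (i : k →+* k') (s : k' ≃+* k') (c : k') (w δ₀ x : GL (Fin 2) k')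
    (u : GL (Fin 2) k) (hδ₀ : IsQuatBase385 c δ₀) (hq : InQuat385 s δ₀ w)
    (hwx : w = x⁻¹ * Matrix.GeneralLinearGroup.map i u * x) :
    ((w : Matrix (Fin 2) (Fin 2) k') 0 0 - 1) * s ((w : Matrix (Fin 2) (Fin 2) k') 0 0 - 1)
        - c * ((w : Matrix (Fin 2) (Fin 2) k') 1 0 * s ((w : Matrix (Fin 2) (Fin 2) k') 1 0))
      = i ((u : Matrix (Fin 2) (Fin 2) k).det - (u : Matrix (Fin 2) (Fin 2) k).trace + 1) := by
  obtain ⟨h01, h11⟩ := inQuat_entries388 s c w δ₀ hδ₀ hq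
  have htr : (w : Matrix (Fin 2) (Fin 2) k').trace = i (u : Matrix (Fin 2) (Fin 2) k).trace := by
    rw [hwx, trace_conj388, trace_map388]
  have hdet : (w : Matrix (Fin 2) (Fin 2) k').det = i (u : Matrix (Fin 2) (Fin 2) k).det := by
    rw [hwx, det_conj388, det_map388]
  have hR : i ((u : Matrix (Fin 2) (Fin 2) k).det - (u : Matrix (Fin 2) (Fin 2) k).trace + 1)
      = (w : Matrix (Fin 2) (Fin 2) k').det - (w : Matrix (Fin 2) (Fin 2) k').trace + 1 := by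
    rw [htr, hdet, map_add, map_sub, map_one]
  rw [hR, Matrix.det_fin_two, Matrix.trace_fin_two, h01, h11, map_sub, map_one]
  ring

theorem inv_nrd388 (u : GL (Fin 2) k) :
    ((u⁻¹ : GL (Fin 2) k) : Matrix (Fin 2) (Fin 2) k).det
        - ((u⁻¹ : GL (Fin 2) k) : Matrix (Fin 2) (Fin 2) k).trace + 1
      = ((u : Matrix (Fin 2) (Fin 2) k).det - (u : Matrix (Fin 2) (Fin 2) k).trace + 1)
          / (u : Matrix (Fin 2) (Fin 2) k).det := by
  have hd : (u : Matrix (Fin 2) (Fin 2) k).det ≠ 0 := Matrix.GeneralLinearGroup.det_ne_zero u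
  have hdet : ((u⁻¹ : GL (Fin 2) k) : Matrix (Fin 2) (Fin 2) k).det
      = ((u : Matrix (Fin 2) (Fin 2) k).det)⁻¹ := by
    have h : ((u⁻¹ : GL (Fin 2) k) : Matrix (Fin 2) (Fin 2) k).det
        * (u : Matrix (Fin 2) (Fin 2) k).det = 1 := by
      rw [← Matrix.det_mul, ← Units.val_mul, inv_mul_cancel, Units.val_one, Matrix.det_one]
    exact eq_inv_of_mul_eq_one_left h
  have htr : ((u⁻¹ : GL (Fin 2) k) : Matrix (Fin 2) (Fin 2) k).trace
      = ((u : Matrix (Fin 2) (Fin 2) k).det)⁻¹ * (u : Matrix (Fin 2) (Fin 2) k).trace := by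
    rw [Matrix.coe_units_inv, Matrix.inv_def, Matrix.adjugate_fin_two, Ring.inverse_eq_inv',
      Matrix.trace_smul, Matrix.trace_fin_two_of, Matrix.trace_fin_two, smul_eq_mul]
    ring
  rw [hdet, htr]
  field_simp
  ring

end Alg

/-! ## 2. Valuations -/

section Val

variable {k k' : Type} [Field k] [Field k'] [Valued k Γ₀] [Valued k' Γ₀]

/-- Squares near `1`, from `SqrtNearC385` applied to `diag(t, 1)`. -/
theorem sq_near_one388 (hS : SqrtNearC385) (q : ℕ) (hk : IsLocalField k q) :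
    ∃ N₀ : ℤ, 1 ≤ N₀ ∧ ∀ t : k, Valued.v (t - 1) ≤ WithZero.exp (-N₀) → ∃ r : k, r ^ 2 = t := by
  obtain ⟨N, hN⟩ := hS k q hk 1 one_ne_zero 0
  refine ⟨max N 1, le_max_right _ _, ?_⟩
  intro t ht
  have ht1 : Valued.v (t - 1) < 1 := by
    refine lt_of_le_of_lt ht ?_
    rw [← WithZero.exp_zero, WithZero.exp_lt_exp]
    have : (1 : ℤ) ≤ max N 1 := le_max_right _ _
    omega
  have hvt : Valued.v t = 1 := by
    have := Valuation.map_one_add_of_lt (v := (Valued.v : Valuation k Γ₀)) ht1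
    rwa [add_sub_cancel] at this
  have ht0 : t ≠ 0 := by
    rintro rfl
    simp at hvt
  have hdet : (!![t, 0; 0, 1] : Matrix (Fin 2) (Fin 2) k).det ≠ 0 := by
    rw [Matrix.det_fin_two_of]
    simpa using ht0
  have htN : Valued.v (t - 1) ≤ WithZero.exp (-N) :=
    le_trans ht (WithZero.exp_le_exp.2 (by have := le_max_left N 1; omega))
  have hball : InChiBall783 (2 * 1) ((1 : k) ^ 2) N
      (Matrix.GeneralLinearGroup.mkOfDetNeZero _ hdet) := by
    constructor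
    · show Valued.v ((!![t, 0; 0, 1] : Matrix (Fin 2) (Fin 2) k).trace - 2 * 1) ≤ _
      rw [Matrix.trace_fin_two_of]
      have e : t + 1 - 2 * 1 = t - 1 := by ring
      rw [e]
      exact htN
    · show Valued.v ((!![t, 0; 0, 1] : Matrix (Fin 2) (Fin 2) k).det - 1 ^ 2) ≤ _
      rw [Matrix.det_fin_two_of]
      have e : t * 1 - 0 * 0 - 1 ^ 2 = t - 1 := by ring
      rw [e]
      exact htN
  obtain ⟨w, a, b, hw, hww, -⟩ := hN _ hball
  have hγ : ((Matrix.GeneralLinearGroup.mkOfDetNeZero _ hdet : GL (Fin 2) k) :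
      Matrix (Fin 2) (Fin 2) k) = !![t, 0; 0, 1] := rfl
  rw [hγ] at hw hww
  have h00 := congrFun (congrFun hww 0) 0
  have hw00 : (w : Matrix (Fin 2) (Fin 2) k) 0 0 = a + b * t := by
    rw [hw]; simp
  have hw01 : (w : Matrix (Fin 2) (Fin 2) k) 0 1 = 0 := by
    rw [hw]; simp
  simp only [Matrix.mul_apply, Fin.sum_univ_two, hw00, hw01, zero_mul, add_zero,
    Matrix.smul_apply, inv_one, smul_eq_mul, one_mul] at h00
  refine ⟨a + b * t, ?_⟩
  rw [pow_two, h00]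
  simp

omit [Valued k' Γ₀] in
/-- Anisotropy of the reduced norm: if `N(P) - z N(R) = d` and `z` is not a norm then `N(P)` and
`z N(R)` are bounded by `exp(N₀) |d|`. -/
theorem aniso388 (i : k →+* k') (s : k' ≃+* k') (hfix : ∀ x : k, s (i x) = i x)
    (h2 : ∀ y, s (s y) = y) (hfixed : ∀ y : k', s y = y → ∃ x : k, i x = y)
    (z : k) (hz : z ≠ 0) (hnn : ¬ IsFieldNorm783 2 i s z)
    (N₀ : ℤ) (hN₀ : 1 ≤ N₀)
    (hsq : ∀ t : k, Valued.v (t - 1) ≤ WithZero.exp (-N₀) → ∃ r : k, r ^ 2 = t)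
    (P R : k') (d : k) (hd : P * s P - i z * (R * s R) = i d) :
    ∃ A B : k, i A = P * s P ∧ i B = R * s R ∧
      Valued.v (z * B) ≤ WithZero.exp N₀ * Valued.v d ∧
      Valued.v A ≤ WithZero.exp N₀ * Valued.v d := by
  obtain ⟨A, hA⟩ := hfixed (P * s P) (by rw [map_mul, h2, mul_comm])
  obtain ⟨B, hB⟩ := hfixed (R * s R) (by rw [map_mul, h2, mul_comm])
  have hinj : Function.Injective i := i.injective
  have hABd : A - z * B = d := by
    apply hinj
    rw [map_sub, map_mul, hA, hB, hd]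
  have h1le : (1 : Γ₀) ≤ WithZero.exp N₀ := by
    rw [← WithZero.exp_zero, WithZero.exp_le_exp]
    omega
  have hzB : Valued.v (z * B) ≤ WithZero.exp N₀ * Valued.v d := by
    by_contra hcon
    rw [not_le] at hcon
    have hzB0 : z * B ≠ 0 := by
      intro h0
      rw [h0, map_zero] at hcon
      exact absurd hcon (not_lt.2 zero_le)
    have hB0 : B ≠ 0 := fun h => hzB0 (by rw [h, mul_zero])
    have hvzB : Valued.v (z * B) ≠ 0 := (Valuation.ne_zero_iff _).2 hzB0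
    -- `t = A / (z B)` is within `exp(-N₀)` of `1`
    have ht : Valued.v (A / (z * B) - 1) ≤ WithZero.exp (-N₀) := by
      have e : A / (z * B) - 1 = d / (z * B) := by
        rw [← hABd]
        field_simp
      rw [e, map_div₀, div_le_iff₀ (zero_lt_iff.2 hvzB)]
      calc Valued.v d = WithZero.exp (-N₀) * (WithZero.exp N₀ * Valued.v d) := by
            rw [← mul_assoc, ← WithZero.exp_add]
            simp
        _ ≤ WithZero.exp (-N₀) * Valued.v (z * B) := mul_le_mul_right hcon.le _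
    obtain ⟨r, hr⟩ := hsq _ ht
    have ht1 : Valued.v (A / (z * B) - 1) < 1 := by
      refine lt_of_le_of_lt ht ?_
      rw [← WithZero.exp_zero, WithZero.exp_lt_exp]
      omega
    have hvt : Valued.v (A / (z * B)) = 1 := by
      have := Valuation.map_one_add_of_lt (v := (Valued.v : Valuation k Γ₀)) ht1
      rwa [add_sub_cancel] at this
    have hr0 : r ≠ 0 := by
      rintro rfl
      rw [zero_pow two_ne_zero] at hr
      rw [← hr, map_zero] at hvt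
      exact zero_ne_one hvt
    have hRR : R * s R ≠ 0 := by
      rw [← hB]
      exact (map_ne_zero i).2 hB0
    have hR0 : R ≠ 0 := fun h => hRR (by rw [h, zero_mul])
    have hsR0 : s R ≠ 0 := fun h => hRR (by rw [h, mul_zero])
    have hir0 : i r ≠ 0 := (map_ne_zero i).2 hr0
    -- `A = r² z B`
    have hAeq : A = r ^ 2 * (z * B) := by
      rw [hr]
      field_simp
    apply hnn
    refine ⟨P / (R * i r), ?_⟩
    rw [Finset.prod_range_succ, Finset.prod_range_one, pow_zero, pow_one]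
    have e1 : (1 : k' ≃+* k') (P / (R * i r)) = P / (R * i r) := rfl
    rw [e1, map_div₀, map_mul, hfix]
    have hiA : P * s P = (i r) ^ 2 * (i z * (R * s R)) := by
      rw [← hA, ← hB, hAeq, map_mul, map_mul, map_pow]
    field_simp
    rw [hiA]
    ring
  refine ⟨A, B, hA, hB, hzB, ?_⟩
  have hAe : A = d + z * B := by rw [← hABd]; ring
  rw [hAe]
  refine le_trans (Valuation.map_add _ _ _) (max_le ?_ hzB)
  calc Valued.v d = 1 * Valued.v d := (one_mul _).symm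
    _ ≤ WithZero.exp N₀ * Valued.v d := mul_le_mul_left h1le _

theorem le_exp_of_sq_le388 (y : Γ₀) (T : ℤ) (h : y ^ 2 ≤ WithZero.exp (-(2 * T))) :
    y ≤ WithZero.exp (-T) := by
  by_contra hcon
  rw [not_le] at hcon
  have h1 : WithZero.exp (-T) ^ 2 < y ^ 2 := pow_lt_pow_left₀ hcon zero_le two_ne_zero
  have h2 : WithZero.exp (-T) ^ 2 = WithZero.exp (-(2 * T)) := by
    rw [pow_two, ← WithZero.exp_add]
    congr 1
    ring
  rw [h2] at h1
  exact absurd h (not_le.2 h1)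

/-- Step 5: the entries of `w - 1` are small. -/
theorem small388 (i : k →+* k') (s : k' ≃+* k') (e : ℕ) (he : 0 < e)
    (hvi : ∀ x : k, Valued.v (i x) = Valued.v x ^ e)
    (hvs : ∀ y : k', Valued.v (s y) = Valued.v y)
    (z : k) (hz : z ≠ 0) (N₀ : ℤ) (M : ℕ) (M' : ℤ)
    (hM' : N₀ + 2 * (M : ℤ) + |WithZero.log (Valued.v z)|
      + 2 * ((e : ℤ) * |WithZero.log (Valued.v z)|) ≤ M')
    (P R : k') (A B d : k) (hA : i A = P * s P) (hB : i B = R * s R)
    (hd : Valued.v d ≤ WithZero.exp (-M'))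
    (hzB : Valued.v (z * B) ≤ WithZero.exp N₀ * Valued.v d)
    (hAv : Valued.v A ≤ WithZero.exp N₀ * Valued.v d) :
    Valued.v P ≤ WithZero.exp (-(M : ℤ)) ∧ Valued.v (s P) ≤ WithZero.exp (-(M : ℤ)) ∧
      Valued.v R ≤ WithZero.exp (-(M : ℤ)) ∧ Valued.v (i z * s R) ≤ WithZero.exp (-(M : ℤ)) := by
  have hvz : Valued.v z ≠ 0 := (Valuation.ne_zero_iff _).2 hz
  have hL : Valued.v z = WithZero.exp (WithZero.log (Valued.v z)) := (WithZero.exp_log hvz).symm
  set L : ℤ := WithZero.log (Valued.v z) with hLdef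
  have habs0 : 0 ≤ |L| := abs_nonneg L
  have habs1 : L ≤ |L| := le_abs_self L
  have habs2 : -L ≤ |L| := neg_le_abs L
  have he1 : (1 : ℤ) ≤ (e : ℤ) := by exact_mod_cast he
  have hE0 : 0 ≤ (e : ℤ) * |L| := mul_nonneg (by omega) habs0
  have hEL : (e : ℤ) * L ≤ (e : ℤ) * |L| := mul_le_mul_of_nonneg_left habs1 (by omega)
  have hM0 : (0 : ℤ) ≤ (M : ℤ) := Int.natCast_nonneg M
  have hbound : WithZero.exp N₀ * Valued.v d ≤ WithZero.exp (N₀ - M') := by
    calc WithZero.exp N₀ * Valued.v d ≤ WithZero.exp N₀ * WithZero.exp (-M') :=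
          mul_le_mul_right hd _
      _ = WithZero.exp (N₀ - M') := by rw [← WithZero.exp_add]; congr 1
  have hpow : ∀ a : Γ₀, a ≤ 1 → a ^ e ≤ a := fun a ha =>
    pow_le_of_le_one zero_le ha (by omega)
  -- `P`
  have hvA : Valued.v A ≤ WithZero.exp (-(2 * (M : ℤ))) :=
    le_trans hAv (le_trans hbound (WithZero.exp_le_exp.2 (by linarith)))
  have hvA1 : Valued.v A ≤ 1 := by
    refine le_trans hvA ?_
    rw [← WithZero.exp_zero, WithZero.exp_le_exp]
    linarith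
  have hP2 : Valued.v P ^ 2 ≤ WithZero.exp (-(2 * (M : ℤ))) := by
    have e1 : Valued.v P ^ 2 = Valued.v A ^ e := by
      rw [← hvi, hA, map_mul, hvs, pow_two]
    rw [e1]
    exact le_trans (hpow _ hvA1) hvA
  have hP : Valued.v P ≤ WithZero.exp (-(M : ℤ)) := le_exp_of_sq_le388 _ _ hP2
  -- `R`
  have hvB : Valued.v B ≤ WithZero.exp (-(2 * ((M : ℤ) + (e : ℤ) * |L|))) := by
    have h1 : WithZero.exp L * Valued.v B ≤ WithZero.exp (N₀ - M') := by
      rw [← hL, ← map_mul]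
      exact le_trans hzB hbound
    calc Valued.v B = WithZero.exp (-L) * (WithZero.exp L * Valued.v B) := by
          rw [← mul_assoc, ← WithZero.exp_add]
          simp
      _ ≤ WithZero.exp (-L) * WithZero.exp (N₀ - M') := mul_le_mul_right h1 _
      _ = WithZero.exp (-L + (N₀ - M')) := (WithZero.exp_add _ _).symm
      _ ≤ WithZero.exp (-(2 * ((M : ℤ) + (e : ℤ) * |L|))) :=
          WithZero.exp_le_exp.2 (by linarith)
  have hvB1 : Valued.v B ≤ 1 := by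
    refine le_trans hvB ?_
    rw [← WithZero.exp_zero, WithZero.exp_le_exp]
    linarith
  have hR2 : Valued.v R ^ 2 ≤ WithZero.exp (-(2 * ((M : ℤ) + (e : ℤ) * |L|))) := by
    have e1 : Valued.v R ^ 2 = Valued.v B ^ e := by
      rw [← hvi, hB, map_mul, hvs, pow_two]
    rw [e1]
    exact le_trans (hpow _ hvB1) hvB
  have hR' : Valued.v R ≤ WithZero.exp (-((M : ℤ) + (e : ℤ) * |L|)) :=
    le_exp_of_sq_le388 _ _ hR2
  have hR : Valued.v R ≤ WithZero.exp (-(M : ℤ)) :=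
    le_trans hR' (WithZero.exp_le_exp.2 (by linarith))
  refine ⟨hP, by rw [hvs]; exact hP, hR, ?_⟩
  have hviz : Valued.v (i z) = WithZero.exp ((e : ℤ) * L) := by
    rw [hvi, hL, ← WithZero.exp_nsmul, nsmul_eq_mul]
  rw [map_mul, hvs, hviz]
  calc WithZero.exp ((e : ℤ) * L) * Valued.v R
      ≤ WithZero.exp ((e : ℤ) * L) * WithZero.exp (-((M : ℤ) + (e : ℤ) * |L|)) :=
        mul_le_mul_right hR' _
    _ = WithZero.exp ((e : ℤ) * L + -((M : ℤ) + (e : ℤ) * |L|)) := (WithZero.exp_add _ _).symm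
    _ ≤ WithZero.exp (-(M : ℤ)) := WithZero.exp_le_exp.2 (by linarith)

/-- The entries of `w - 1`, `w = x⁻¹ (ι u) x ∈ D^×`, are small if `Nrd(u - 1)` is small. -/
theorem quat_small388 (i : k →+* k') (s : k' ≃+* k') (e : ℕ) (he : 0 < e)
    (hvi : ∀ x : k, Valued.v (i x) = Valued.v x ^ e)
    (hvs : ∀ y : k', Valued.v (s y) = Valued.v y)
    (hfix : ∀ x : k, s (i x) = i x) (h2 : ∀ y, s (s y) = y)
    (hfixed : ∀ y : k', s y = y → ∃ x : k, i x = y)
    (z : k) (hz : z ≠ 0) (hnn : ¬ IsFieldNorm783 2 i s z)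
    (N₀ : ℤ) (hN₀ : 1 ≤ N₀)
    (hsq : ∀ t : k, Valued.v (t - 1) ≤ WithZero.exp (-N₀) → ∃ r : k, r ^ 2 = t)
    (M : ℕ) (M' : ℤ)
    (hM' : N₀ + 2 * (M : ℤ) + |WithZero.log (Valued.v z)|
      + 2 * ((e : ℤ) * |WithZero.log (Valued.v z)|) ≤ M')
    (w δ₀ x : GL (Fin 2) k') (u : GL (Fin 2) k)
    (hδ₀ : IsQuatBase385 (i z) δ₀) (hq : InQuat385 s δ₀ w)
    (hwx : w = x⁻¹ * Matrix.GeneralLinearGroup.map i u * x)
    (hu : Valued.v ((u : Matrix (Fin 2) (Fin 2) k).det - (u : Matrix (Fin 2) (Fin 2) k).trace + 1)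
      ≤ WithZero.exp (-M')) :
    ∀ p q : Fin 2, Valued.v ((w : Matrix (Fin 2) (Fin 2) k') p q
      - (1 : Matrix (Fin 2) (Fin 2) k') p q) ≤ WithZero.exp (-(M : ℤ)) := by
  have hnrd := nrd_sub_one388 i s (i z) w δ₀ x u hδ₀ hq hwx
  obtain ⟨h01, h11⟩ := inQuat_entries388 s (i z) w δ₀ hδ₀ hq
  obtain ⟨A, B, hA, hB, hzB, hAv⟩ := aniso388 i s hfix h2 hfixed z hz hnn N₀ hN₀ hsq _ _ _ hnrd
  obtain ⟨hP, hsP, hR, hzR⟩ := small388 i s e he hvi hvs z hz N₀ M M' hM' _ _ A B _ hA hB hu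
    hzB hAv
  intro p q
  fin_cases p <;> fin_cases q
  · simpa using hP
  · simpa [h01] using hzR
  · simpa using hR
  · simpa [h11] using hsP

end Val

/-! ## 3. The leaf -/

/-- **T6.18i.4 `TwReduceC385`** (VERBATIM) from `SqrtNearC385`. -/
theorem twReduce_of_sqrt388 (hS : SqrtNearC385) : TwReduceC385 := by
  intro k k' _ _ _ _ q e i s hq z hz hnn M
  obtain ⟨N₀, hN₀, hsq⟩ := sq_near_one388 hS q hq.hk
  have hnonneg : (0 : ℤ) ≤ N₀ + 2 * (M : ℤ) + |WithZero.log (Valued.v z)|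
      + 2 * ((e : ℤ) * |WithZero.log (Valued.v z)|) := by
    have h1 : 0 ≤ |WithZero.log (Valued.v z)| := abs_nonneg _
    have h2 : (0 : ℤ) ≤ (e : ℤ) * |WithZero.log (Valued.v z)| :=
      mul_nonneg (Int.natCast_nonneg e) h1
    have h3 : (0 : ℤ) ≤ (M : ℤ) := Int.natCast_nonneg M
    linarith
  obtain ⟨M', hM'eq⟩ : ∃ M' : ℕ, (M' : ℤ) = N₀ + 2 * (M : ℤ) + |WithZero.log (Valued.v z)|
      + 2 * ((e : ℤ) * |WithZero.log (Valued.v z)|) :=
    ⟨_, Int.toNat_of_nonneg hnonneg⟩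
  have hM'1 : (1 : ℤ) ≤ (M' : ℤ) := by
    have h1 : 0 ≤ |WithZero.log (Valued.v z)| := abs_nonneg _
    have h2 : (0 : ℤ) ≤ (e : ℤ) * |WithZero.log (Valued.v z)| :=
      mul_nonneg (Int.natCast_nonneg e) h1
    have h3 : (0 : ℤ) ≤ (M : ℤ) := Int.natCast_nonneg M
    linarith
  obtain ⟨N, hN⟩ := hS k q hq.hk z hz M'
  refine ⟨N, ?_⟩
  intro δ γ _ hball hconj
  obtain ⟨w₁, a, b, hw, hww, hball₁⟩ := hN γ hball
  have hfix := hq.ext.cyc.fix_i
  have h2 : ∀ y, s (s y) = y := fun y => by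
    have := hq.ext.cyc.order y
    rwa [pow_two] at this
  obtain ⟨w, δ₀, x, hδ₀, hquat, htw, hwx⟩ :=
    reduce_alg388 i s hfix h2 z hz hnn δ γ w₁ a b hw hww hconj
  refine ⟨w, δ₀, hδ₀, hquat, ?_, htw⟩
  obtain ⟨hb1, hb2⟩ := hball₁
  -- `Nrd(w₁ - 1)` is small
  have hd : Valued.v ((w₁ : Matrix (Fin 2) (Fin 2) k).det
      - (w₁ : Matrix (Fin 2) (Fin 2) k).trace + 1) ≤ WithZero.exp (-(M' : ℤ)) := by
    have e1 : (w₁ : Matrix (Fin 2) (Fin 2) k).det - (w₁ : Matrix (Fin 2) (Fin 2) k).trace + 1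
        = ((w₁ : Matrix (Fin 2) (Fin 2) k).det - 1)
          - ((w₁ : Matrix (Fin 2) (Fin 2) k).trace - 2) := by ring
    rw [e1]
    exact le_trans (Valuation.map_sub _ _ _) (max_le hb2 hb1)
  -- `det w₁` is a unit
  have hdet1 : Valued.v (w₁ : Matrix (Fin 2) (Fin 2) k).det = 1 := by
    have hlt : Valued.v ((w₁ : Matrix (Fin 2) (Fin 2) k).det - 1) < 1 := by
      refine lt_of_le_of_lt hb2 ?_
      rw [← WithZero.exp_zero, WithZero.exp_lt_exp]
      omega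
    have := Valuation.map_one_add_of_lt (v := (Valued.v : Valuation k Γ₀)) hlt
    rwa [add_sub_cancel] at this
  have hd' : Valued.v (((w₁⁻¹ : GL (Fin 2) k) : Matrix (Fin 2) (Fin 2) k).det
      - ((w₁⁻¹ : GL (Fin 2) k) : Matrix (Fin 2) (Fin 2) k).trace + 1)
        ≤ WithZero.exp (-(M' : ℤ)) := by
    rw [inv_nrd388, map_div₀, hdet1, div_one]
    exact hd
  have hwx' : w⁻¹ = x⁻¹ * Matrix.GeneralLinearGroup.map i w₁⁻¹ * x := by
    rw [hwx, map_inv]
    group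
  have hS1 := quat_small388 i s e hq.ext.e_pos hq.ext.val_i hq.ext.val_s hfix h2
    hq.ext.cyc.fixed z hz hnn N₀ hN₀ hsq M M' (le_of_eq hM'eq.symm) w δ₀ x w₁ hδ₀ hquat hwx hd
  have hS2 := quat_small388 i s e hq.ext.e_pos hq.ext.val_i hq.ext.val_s hfix h2
    hq.ext.cyc.fixed z hz hnn N₀ hN₀ hsq M M' (le_of_eq hM'eq.symm) w⁻¹ δ₀ x w₁⁻¹ hδ₀
    (inQuat_inv388 s w δ₀ hquat) hwx' hd'
  intro p q'
  exact ⟨hS1 p q', hS2 p q'⟩

end Fermat.Agent.LT.T6.H388

end
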